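/-
S26 / block F, node F4a (Mathlib only): spreading out a generator of a colon ideal.
Owner: helper50.
-/
import Mathlib

set_option autoImplicit false

namespace Fermat.Agent.S26.F

/-- `z ∈ F` lies in the localisation `R_q`. -/
def InLoc {R F : Type*} [CommRing R] [Field F] [Algebra R F] (q : Ideal R) (z : F) : Prop :=
  ∃ a s : R, s ∉ q ∧ z * algebraMap R F s = algebraMap R F a

/-- divisibility in the localisation at a prime of a domain -/
theorem Spread.map_dvd_map_iff {R : Type*} [CommRing R] [IsDomain R] (m : Ideal R) [m.IsPrime]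
    (x y : R) :
    algebraMap R (Localization.AtPrime m) x ∣ algebraMap R (Localization.AtPrime m) y ↔
      ∃ s : R, s ∉ m ∧ x ∣ s * y := by
  have hinj : Function.Injective (algebraMap R (Localization.AtPrime m)) :=
    IsLocalization.injective _ m.primeCompl_le_nonZeroDivisors
  constructor
  · rintro ⟨w, hw⟩
    obtain ⟨d, t, rfl⟩ := IsLocalization.exists_mk'_eq m.primeCompl w
    refine ⟨t, t.2, d, hinj ?_⟩
    rw [map_mul, map_mul, hw, mul_comm, mul_assoc, IsLocalization.mk'_spec]
  · rintro ⟨s, hs, d, hd⟩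
    have hu : IsUnit (algebraMap R (Localization.AtPrime m) s) :=
      IsLocalization.map_units (Localization.AtPrime m) (⟨s, hs⟩ : m.primeCompl)
    have h1 : algebraMap R (Localization.AtPrime m) x ∣
        algebraMap R (Localization.AtPrime m) s * algebraMap R (Localization.AtPrime m) y := by
      rw [← map_mul, hd, map_mul]
      exact Dvd.intro _ rfl
    exact (hu.dvd_mul_left).1 h1

/-- **F4a.**  `R` a noetherian domain, `m` a prime such that the colon ideals of `R_m` are principal,
`r ∈ Frac R`.  Then there are `f ∉ m` and `θ ≠ 0` in `R` such that `θ` generates the ideal of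
denominators of `r` in `R_q` for every prime `q ∌ f`. -/
theorem exists_spread {R F : Type*} [CommRing R] [IsDomain R] [IsNoetherianRing R] [Field F]
    [Algebra R F] [IsFractionRing R F] (m : Ideal R) [m.IsPrime]
    (hm : ∀ a b : Localization.AtPrime m, b ≠ 0 → ∃ θ, ∀ c, b ∣ c * a ↔ θ ∣ c) (r : F) :
    ∃ f θ : R, f ∉ m ∧ θ ≠ 0 ∧ ∀ q : Ideal R, q.IsPrime → f ∉ q → ∀ z : F, InLoc q z →
      (InLoc q (z * r) ↔ InLoc q (z / algebraMap R F θ)) := by
  classical
  have hinjF : Function.Injective (algebraMap R F) := IsFractionRing.injective R F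
  have hinj : Function.Injective (algebraMap R (Localization.AtPrime m)) :=
    IsLocalization.injective _ m.primeCompl_le_nonZeroDivisors
  obtain ⟨a, b, hb, rfl⟩ := IsFractionRing.div_surjective (A := R) r
  have hb0 : b ≠ 0 := nonZeroDivisors.ne_zero hb
  have hbF : algebraMap R F b ≠ 0 := fun h => hb0 (hinjF (h.trans (map_zero _).symm))
  set ι := algebraMap R (Localization.AtPrime m) with hι
  have hιb : ι b ≠ 0 := fun h => hb0 (hinj (h.trans (map_zero _).symm))
  obtain ⟨θm, hθm⟩ := hm (ι a) (ι b) hιb
  obtain ⟨θ0, s0, rfl⟩ := IsLocalization.exists_mk'_eq m.primeCompl θm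
  -- replace the generator by an element of `R`
  have hθ0 : ∀ c, ι b ∣ c * ι a ↔ ι θ0 ∣ c := by
    intro c
    rw [hθm c]
    have hu : IsUnit (ι s0) := IsLocalization.map_units (Localization.AtPrime m) s0
    have e : ι θ0 = IsLocalization.mk' (Localization.AtPrime m) θ0 s0 * ι s0 :=
      (IsLocalization.mk'_spec _ _ _).symm
    rw [e]
    exact (hu.mul_right_dvd).symm
  obtain ⟨s1, hs1, hbθ⟩ : ∃ s : R, s ∉ m ∧ b ∣ s * (θ0 * a) := by
    rw [← Spread.map_dvd_map_iff, map_mul]
    exact (hθ0 _).2 dvd_rfl
  have hθ00 : θ0 ≠ 0 := by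
    rintro rfl
    have h1 : ι 0 ∣ ι b := (hθ0 _).1 (Dvd.intro _ rfl)
    rw [map_zero, zero_dvd_iff] at h1
    exact hιb h1
  have hs10 : s1 ≠ 0 := by
    rintro rfl
    exact hs1 m.zero_mem
  set θ := s1 * θ0 with hθ
  have hθne : θ ≠ 0 := mul_ne_zero hs10 hθ00
  have hθF : algebraMap R F θ ≠ 0 := fun h => hθne (hinjF (h.trans (map_zero _).symm))
  have hbθ' : b ∣ θ * a := by rwa [hθ, mul_assoc]
  -- the colon ideal
  let I : Ideal R :=
    { carrier := {c | b ∣ c * a}
      add_mem' := fun {x y} hx hy => by
        show b ∣ (x + y) * a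
        rw [add_mul]
        exact dvd_add hx hy
      zero_mem' := by
        show b ∣ 0 * a
        rw [zero_mul]
        exact dvd_zero b
      smul_mem' := fun r x hx => by
        show b ∣ (r * x) * a
        rw [mul_assoc]
        exact Dvd.dvd.mul_left hx r }
  obtain ⟨S, hS⟩ : I.FG := IsNoetherian.noetherian I
  have ht : ∀ c ∈ S, ∃ t : R, t ∉ m ∧ θ ∣ t * c := by
    intro c hc
    have hcI : b ∣ c * a := by
      have : c ∈ I := hS ▸ Submodule.subset_span hc
      exact this
    have h1 : ι θ0 ∣ ι c := by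
      rw [← hθ0, ← map_mul]
      exact map_dvd ι hcI
    obtain ⟨s, hs, hd⟩ := (Spread.map_dvd_map_iff m θ0 c).1 h1
    refine ⟨s1 * s, fun h => ?_, ?_⟩
    · rcases (Ideal.IsPrime.mem_or_mem inferInstance h) with h | h
      · exact hs1 h
      · exact hs h
    · rw [hθ, mul_assoc]
      exact mul_dvd_mul_left s1 hd
  choose! t htm htd using ht
  have hf : ∀ c ∈ I, θ ∣ (∏ y ∈ S, t y) * c := by
    intro c hc
    rw [← hS] at hc
    induction hc using Submodule.span_induction with
    | mem x hx =>
      rw [← Finset.mul_prod_erase S t hx, mul_right_comm]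
      exact Dvd.dvd.mul_right (htd x hx) _
    | zero => rw [mul_zero]; exact dvd_zero _
    | add x y _ _ hx hy => rw [mul_add]; exact dvd_add hx hy
    | smul a x _ hx => rw [smul_eq_mul, mul_left_comm]; exact Dvd.dvd.mul_left hx a
  refine ⟨∏ y ∈ S, t y, θ, ?_, hθne, ?_⟩
  · intro hmem
    obtain ⟨x, hx, hxp⟩ := Ideal.IsPrime.prod_mem_iff.1 hmem
    exact htm x hx hxp
  intro q hq hfq z hz
  obtain ⟨c, s, hs, hzs⟩ := hz
  constructor
  · rintro ⟨c', s', hs', h'⟩
    have h1 : c * s' * a = b * (c' * s) := by
      apply hinjF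
      simp only [map_mul]
      rw [← hzs, ← h']
      field_simp
    have h2 : c * s' ∈ I := ⟨_, h1⟩
    obtain ⟨d, hd⟩ := hf _ h2
    refine ⟨d, (∏ y ∈ S, t y) * (s * s'), fun h => ?_, ?_⟩
    · rcases hq.mem_or_mem h with h | h
      · exact hfq h
      · rcases hq.mem_or_mem h with h | h
        · exact hs h
        · exact hs' h
    · have h3 : algebraMap R F (∏ y ∈ S, t y) * (algebraMap R F c * algebraMap R F s') =
          algebraMap R F θ * algebraMap R F d := by
        rw [← map_mul, ← map_mul, hd, map_mul]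
      have e1 : algebraMap R F ((∏ y ∈ S, t y) * (s * s')) =
          algebraMap R F (∏ y ∈ S, t y) * (algebraMap R F s * algebraMap R F s') := by
        rw [map_mul, map_mul]
      rw [e1, div_mul_eq_mul_div, div_eq_iff hθF, mul_comm _ (algebraMap R F θ), ← h3, ← hzs]
      ring
  · rintro ⟨c', s', hs', h'⟩
    obtain ⟨e, he⟩ := hbθ'
    refine ⟨c' * e, s', hs', ?_⟩
    have h3 : algebraMap R F θ * algebraMap R F a = algebraMap R F b * algebraMap R F e := by
      rw [← map_mul, he, map_mul]
    have h4 : z * algebraMap R F s' = algebraMap R F c' * algebraMap R F θ := by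
      rw [← h']
      field_simp
    rw [map_mul]
    calc z * (algebraMap R F a / algebraMap R F b) * algebraMap R F s'
        = (z * algebraMap R F s') * algebraMap R F a / algebraMap R F b := by ring
      _ = algebraMap R F c' * (algebraMap R F θ * algebraMap R F a) / algebraMap R F b := by
          rw [h4]; ring
      _ = algebraMap R F c' * algebraMap R F e := by
          rw [h3]
          field_simp

end Fermat.Agent.S26.F
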