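/-
S26 / block F, node F4b: dictionary between the local rings of an integral scheme (inside the function
field) and the localisations of the ring of an affine open.  Owner: helper50.
-/
import Fermat.Agent.S26.B.Defs
import Fermat.Agent.S26.F.Spread

set_option autoImplicit false

universe u

open CategoryTheory CategoryTheory.Limits AlgebraicGeometry

namespace Fermat.Agent.S26.F

variable {T : Scheme.{u}} [IsIntegral T]

theorem Dict.isRegAt_iff_inLoc {V : T.Opens} (hV : IsAffineOpen V) [Nonempty V] (y : T)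
    (hy : y ∈ V) (u : T.functionField) :
    IsRegAt y u ↔ InLoc (R := Γ(T, V)) (hV.primeIdealOf ⟨y, hy⟩).asIdeal u := by
  let : Algebra Γ(T, V) (T.presheaf.stalk y) :=
    TopCat.Presheaf.algebra_section_stalk T.presheaf (⟨y, hy⟩ : V)
  have : IsLocalization.AtPrime (T.presheaf.stalk y) (hV.primeIdealOf ⟨y, hy⟩).asIdeal :=
    hV.isLocalization_stalk ⟨y, hy⟩
  have : IsScalarTower Γ(T, V) (T.presheaf.stalk y) T.functionField :=
    functionField_isScalarTower T V ⟨y, hy⟩
  constructor
  · rintro ⟨a, rfl⟩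
    obtain ⟨b, s, rfl⟩ := IsLocalization.exists_mk'_eq
      (hV.primeIdealOf ⟨y, hy⟩).asIdeal.primeCompl a
    refine ⟨b, s, s.2, ?_⟩
    rw [IsScalarTower.algebraMap_apply Γ(T, V) (T.presheaf.stalk y) T.functionField,
      IsScalarTower.algebraMap_apply Γ(T, V) (T.presheaf.stalk y) T.functionField, ← map_mul,
      IsLocalization.mk'_spec]
  · rintro ⟨a, s, hs, h⟩
    refine ⟨IsLocalization.mk' (T.presheaf.stalk y) a
      (⟨s, hs⟩ : (hV.primeIdealOf ⟨y, hy⟩).asIdeal.primeCompl), ?_⟩
    have hs0 : algebraMap Γ(T, V) T.functionField s ≠ 0 := by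
      intro h0
      have : s = 0 := (T.germToFunctionField_injective V) (h0.trans (map_zero _).symm)
      rw [this] at hs
      exact hs (Ideal.zero_mem _)
    apply mul_right_cancel₀ hs0
    rw [h, IsScalarTower.algebraMap_apply Γ(T, V) (T.presheaf.stalk y) T.functionField,
      IsScalarTower.algebraMap_apply Γ(T, V) (T.presheaf.stalk y) T.functionField, ← map_mul]
    congr 1
    exact IsLocalization.mk'_spec _ _ _

omit [IsIntegral T] in
theorem Dict.mem_basicOpen_iff {V : T.Opens} (hV : IsAffineOpen V) (y : T)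
    (hy : y ∈ V) (f : Γ(T, V)) :
    y ∈ T.basicOpen f ↔ f ∉ (hV.primeIdealOf ⟨y, hy⟩).asIdeal := by
  let : Algebra Γ(T, V) (T.presheaf.stalk y) :=
    TopCat.Presheaf.algebra_section_stalk T.presheaf (⟨y, hy⟩ : V)
  have : IsLocalization.AtPrime (T.presheaf.stalk y) (hV.primeIdealOf ⟨y, hy⟩).asIdeal :=
    hV.isLocalization_stalk ⟨y, hy⟩
  rw [Scheme.mem_basicOpen T f y hy]
  exact IsLocalization.AtPrime.isUnit_to_map_iff (T.presheaf.stalk y)
    (hV.primeIdealOf ⟨y, hy⟩).asIdeal f

theorem Dict.isRegAt_mul {x : T} {u v : T.functionField} (hu : IsRegAt x u) (hv : IsRegAt x v) :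
    IsRegAt x (u * v) := by
  obtain ⟨a, rfl⟩ := hu
  obtain ⟨b, rfl⟩ := hv
  exact ⟨a * b, map_mul _ _ _⟩

theorem Dict.isRegAt_one (x : T) : IsRegAt x (1 : T.functionField) := ⟨1, map_one _⟩

theorem Dict.isUnitAt_of_isRegAt {x : T} {u v : T.functionField} (hu : IsRegAt x u)
    (hv : IsRegAt x v) (h : u * v = 1) : IsUnitAt x u := by
  obtain ⟨a, rfl⟩ := hu
  obtain ⟨b, rfl⟩ := hv
  refine ⟨a, IsUnit.of_mul_eq_one b ?_, rfl⟩
  apply IsFractionRing.injective (T.presheaf.stalk x) T.functionField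
  rw [map_mul, map_one]
  exact h

end Fermat.Agent.S26.F
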