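/-
S26 / block F, node F3 (Mathlib only): descent of "colon ideals are principal" along a flat local
homomorphism to a UFD.
-/
import Mathlib

set_option autoImplicit false

universe u

namespace Fermat.Agent.S26.F

/-- **F3.** `O` a noetherian local domain, `O → O'` flat and local, `O'` a UFD.  Then for all
`a, b ∈ O`, `b ≠ 0`, the ideal `(bO : a) = {c | b ∣ c * a}` is principal. -/
theorem exists_colon_generator_of_flat {O O' : Type u} [CommRing O] [IsDomain O] [IsLocalRing O]
    [IsNoetherianRing O] [CommRing O'] [IsDomain O'] [UniqueFactorizationMonoid O']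
    [IsLocalRing O'] [Algebra O O'] [Module.Flat O O'] [IsLocalHom (algebraMap O O')]
    (a b : O) (hb : b ≠ 0) :
    ∃ θ : O, ∀ c : O, b ∣ c * a ↔ θ ∣ c := by
  classical
  have hff : Module.FaithfullyFlat O O' := Module.FaithfullyFlat.of_flat_of_isLocalHom
  set φ : O →+* O' := algebraMap O O' with hφ
  -- the colon ideal
  let I : Ideal O :=
    { carrier := {c | b ∣ c * a}
      add_mem' := fun {x y} hx hy => by
        show b ∣ (x + y) * a
        rw [add_mul]
        exact dvd_add hx hy
      zero_mem' := by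
        show b ∣ 0 * a
        rw [zero_mul]
        exact dvd_zero b
      smul_mem' := fun r x hx => by
        show b ∣ (r * x) * a
        rw [mul_assoc]
        exact Dvd.dvd.mul_left hx r }
  -- `φ b ≠ 0`
  have hb' : φ b ≠ 0 := by
    intro h0
    have h1 : b ∈ ((⊥ : Ideal O).map φ).comap φ := by
      rw [Ideal.mem_comap, h0]
      exact Ideal.zero_mem _
    rw [Ideal.comap_map_eq_self_of_faithfullyFlat] at h1
    exact hb h1
  -- flatness: the colon ideal commutes with the base change
  have hflat : ∀ c' : O', φ b ∣ c' * φ a → c' ∈ I.map φ := by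
    rintro c' ⟨d', hd'⟩
    have hrel : ∑ i : Fin 2, (![a, -b] i) • (![c', d'] i) = 0 := by
      rw [Fin.sum_univ_two]
      show a • c' + (-b) • d' = 0
      rw [Algebra.smul_def, Algebra.smul_def, map_neg, ← hφ, mul_comm, hd']
      ring
    obtain ⟨k, α, y, hx, hα⟩ := Module.Flat.isTrivialRelation_of_sum_smul_eq_zero (R := O)
      (M := O') (f := ![a, -b]) (x := ![c', d']) hrel
    have h0 : c' = ∑ j, α 0 j • y j := hx 0
    rw [h0]
    refine Ideal.sum_mem _ fun j _ => ?_
    rw [Algebra.smul_def]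
    refine Ideal.mul_mem_right _ _ (Ideal.mem_map_of_mem φ ?_)
    have hj : a * α 0 j + (-b) * α 1 j = 0 := by
      have := hα j
      rwa [Fin.sum_univ_two] at this
    exact ⟨α 1 j, by linear_combination hj⟩
  -- in the UFD the colon ideal is principal
  obtain ⟨b₁, a₁, g, hrp, hgb, hga⟩ :=
    UniqueFactorizationMonoid.exists_reduced_factors (φ b) hb' (φ a)
  have hg : g ≠ 0 := by
    rintro rfl
    rw [zero_mul] at hgb
    exact hb' hgb.symm
  have hb₁ : b₁ ≠ 0 := by
    rintro rfl
    rw [mul_zero] at hgb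
    exact hb' hgb.symm
  have hcol : ∀ c' : O', φ b ∣ c' * φ a ↔ b₁ ∣ c' := by
    intro c'
    rw [← hgb, ← hga, mul_left_comm, mul_dvd_mul_iff_left hg]
    exact ⟨fun h => hrp.dvd_of_dvd_mul_right h, fun h => h.mul_right _⟩
  have hmap : ∀ c' : O', c' ∈ I.map φ ↔ b₁ ∣ c' := by
    intro c'
    refine ⟨fun h => ?_, fun h => hflat c' ((hcol c').2 h)⟩
    have hle : I.map φ ≤ Ideal.span {b₁} := by
      rw [Ideal.map_le_iff_le_comap]
      intro c hc
      rw [Ideal.mem_comap, Ideal.mem_span_singleton, ← hcol, ← map_mul]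
      exact map_dvd φ hc
    exact Ideal.mem_span_singleton.1 (hle h)
  -- some element of `I` generates `I O'`
  obtain ⟨c₀, hc₀, x, hx, hc₀x⟩ : ∃ c₀ ∈ I, ∃ x, IsUnit x ∧ φ c₀ = b₁ * x := by
    by_contra hcon
    have hle : I.map φ ≤ Ideal.span {b₁} * IsLocalRing.maximalIdeal O' := by
      rw [Ideal.map_le_iff_le_comap]
      intro c hc
      obtain ⟨x, hx⟩ := (hmap (φ c)).1 (Ideal.mem_map_of_mem φ hc)
      rw [Ideal.mem_comap, Ideal.mem_span_singleton_mul]
      exact ⟨x, fun hu => hcon ⟨c, hc, x, hu, hx⟩, hx.symm⟩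
    obtain ⟨z, hz, hz1⟩ := Ideal.mem_span_singleton_mul.1 (hle ((hmap b₁).2 dvd_rfl))
    have hz2 : z = 1 := mul_left_cancel₀ hb₁ (by rw [hz1, mul_one])
    rw [hz2] at hz
    exact hz isUnit_one
  -- faithfully flat descent
  refine ⟨c₀, fun c => ⟨fun hc => ?_, fun hc => ?_⟩⟩
  · have h1 : b₁ ∣ φ c := (hmap _).1 (Ideal.mem_map_of_mem φ (show c ∈ I from hc))
    have h2 : φ c₀ ∣ φ c := by
      rw [hc₀x]
      exact hx.mul_right_dvd.2 h1
    have h3 : c ∈ ((Ideal.span {c₀}).map φ).comap φ := by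
      rw [Ideal.mem_comap, Ideal.map_span, Set.image_singleton, Ideal.mem_span_singleton]
      exact h2
    rw [Ideal.comap_map_eq_self_of_faithfullyFlat] at h3
    exact Ideal.mem_span_singleton.1 h3
  · obtain ⟨r, rfl⟩ := hc
    exact I.mul_mem_right r hc₀

end Fermat.Agent.S26.F
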