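/-
S26 / block F, node F2 (Mathlib only): a flat local homomorphism from the local ring of a smooth
algebra at a rational point to a formal power series ring.
-/
import Mathlib
import Fermat.Agent.S26.F.FlatMap.LocalCase
import Fermat.Agent.S26.F.FlatMap.Residue

set_option autoImplicit false

universe u

namespace Fermat.Agent.S26.F

/-- **F2.** `S` smooth over the field `K`, `𝔪` a maximal ideal with residue field `K`.  Then there
are `g` and a flat local ring homomorphism `S_𝔪 → K[[t_1, …, t_g]]`. -/
theorem exists_flat_local_hom {K S : Type u} [Field K] [CommRing S] [Algebra K S]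
    [Algebra.Smooth K S] (𝔪 : Ideal S) [𝔪.IsMaximal]
    (h𝔪 : Function.Bijective (algebraMap K (S ⧸ 𝔪))) :
    ∃ (g : ℕ) (φ : Localization.AtPrime 𝔪 →+* MvPowerSeries (Fin g) K),
      φ.Flat ∧ IsLocalHom φ := by
  have : IsNoetherianRing S := Algebra.FiniteType.isNoetherianRing K S
  have : IsNoetherianRing (Localization.AtPrime 𝔪) :=
    IsLocalization.isNoetherianRing 𝔪.primeCompl _ inferInstance
  exact FlatMap.exists_flat_local_hom_of_local (FlatMap.surjective_algebraMap_residueField 𝔪 h𝔪.2)

end Fermat.Agent.S26.F
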