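/-
S26 / block F, node F1 (Mathlib only): formal power series in finitely many variables over a
field form a UFD (Weierstrass preparation + induction on the number of variables).
Assembly: completeness (UFD/Complete), Weierstrass + Gauss (UFD/Weierstrass), the induction
(UFD/PowerSeriesOf) and the change of coordinates valid over ANY field (F/Ufd/Coord).
-/
import Fermat.Agent.S26.UFD.Complete
import Fermat.Agent.S26.UFD.Weierstrass
import Fermat.Agent.S26.UFD.PowerSeriesOf
import Fermat.Agent.S26.F.Ufd.Coord

set_option autoImplicit false

universe u

namespace Fermat.Agent.S26.F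

/-- **F1.** `K[[t_1, …, t_g]]` is a unique factorisation domain. -/
theorem ufd_mvPowerSeries (K : Type u) [Field K] (g : ℕ) :
    UniqueFactorizationMonoid (MvPowerSeries (Fin g) K) := by
  refine UFD.ufd_mvPowerSeries_of K (fun n hn f hf => ?_)
    (fun n f hf => coord_exists_ringEquiv_map_ne_zero K n f hf) g
  have : IsDomain (MvPowerSeries (Fin n) K) := NoZeroDivisors.to_isDomain _
  have := UFD.isAdicComplete_mvPowerSeries K n
  exact UFD.exists_prime_factors_of_map_ne_zero (MvPowerSeries (Fin n) K) f hf

end Fermat.Agent.S26.F
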