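/-
S26 / block F : the local theorem (substitute for factoriality of regular local rings).
-/
import Fermat.Agent.S26.F.Ufd
import Fermat.Agent.S26.F.Colon
import Fermat.Agent.S26.F.FlatMap

set_option autoImplicit false

universe u

namespace Fermat.Agent.S26.F

/-- **F-local.** In the local ring of a smooth `K`-domain at a `K`-rational maximal ideal all colon
ideals `(b : a)` are principal. -/
theorem exists_colon_generator {K S : Type u} [Field K] [CommRing S] [IsDomain S] [Algebra K S]
    [Algebra.Smooth K S] (𝔪 : Ideal S) [𝔪.IsMaximal]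
    (h𝔪 : Function.Bijective (algebraMap K (S ⧸ 𝔪)))
    (a b : Localization.AtPrime 𝔪) (hb : b ≠ 0) :
    ∃ θ : Localization.AtPrime 𝔪, ∀ c, b ∣ c * a ↔ θ ∣ c := by
  obtain ⟨g, φ, hflat, hloc⟩ := exists_flat_local_hom 𝔪 h𝔪
  let : Algebra (Localization.AtPrime 𝔪) (MvPowerSeries (Fin g) K) := φ.toAlgebra
  have : Module.Flat (Localization.AtPrime 𝔪) (MvPowerSeries (Fin g) K) := hflat
  have : IsLocalHom (algebraMap (Localization.AtPrime 𝔪) (MvPowerSeries (Fin g) K)) := hloc
  have := ufd_mvPowerSeries K g
  have : IsDomain (MvPowerSeries (Fin g) K) := NoZeroDivisors.to_isDomain _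
  have : IsNoetherianRing S := Algebra.FiniteType.isNoetherianRing K S
  have : IsNoetherianRing (Localization.AtPrime 𝔪) :=
    IsLocalization.isNoetherianRing 𝔪.primeCompl _ inferInstance
  exact exists_colon_generator_of_flat (O' := MvPowerSeries (Fin g) K) a b hb

end Fermat.Agent.S26.F
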