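/-
S26 / block F, node F4c: local generators of the ideals of denominators on a smooth integral scheme over
an algebraically closed field.  Owner: helper50.
-/
import Fermat.Agent.S26.F.Dict
import Fermat.Agent.S26.F.Local

set_option autoImplicit false

universe u

open CategoryTheory CategoryTheory.Limits AlgebraicGeometry

namespace Fermat.Agent.S26.F

/-- the structure map of the ring of an open subscheme of a `K`-scheme -/
noncomputable def Den.str {K : Type u} [Field K] {A : Scheme.{u}} (f : A ⟶ SpK K) (V : A.Opens) :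
    K →+* Γ(A, V) :=
  (f.appLE ⊤ V le_top).hom.comp
    (Scheme.ΓSpecIso (CommRingCat.of K)).symm.commRingCatIsoToRingEquiv.toRingHom

/-- standard smooth charts of a smooth `K`-scheme -/
theorem Den.exists_chart {K : Type u} [Field K] {A : Scheme.{u}} (f : A ⟶ SpK K) [Smooth f]
    (z : A) : ∃ (V : A.Opens) (_ : IsAffineOpen V) (_ : z ∈ V), (Den.str f V).IsStandardSmooth := by
  obtain ⟨U, hU, V, hV, hz, e, hf⟩ := Smooth.exists_isStandardSmooth f z
  have hUtop : U = ⊤ := by
    ext y
    simp only [TopologicalSpace.Opens.coe_top, Set.mem_univ, iff_true]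
    have : y = f z := Subsingleton.elim (α := PrimeSpectrum K) _ _
    rw [this]
    exact e hz
  subst hUtop
  exact ⟨V, hV, hz, RingHom.isStandardSmooth_respectsIso.2 _ _ hf⟩

/-- **F4c.** -/
theorem exists_den {K : Type u} [Field K] [IsAlgClosed K] {A : Scheme.{u}} (f : A ⟶ SpK K)
    [IsIntegral A] [Smooth f] (r : A.functionField) (x : A) :
    ∃ (U : A.Opens) (u : A.functionField), x ∈ U ∧ u ≠ 0 ∧ ∀ y ∈ U, IsRegAt y u ∧
      ∀ z, IsRegAt y z → (IsRegAt y (z * r) ↔ IsRegAt y (z / u)) := by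
  obtain ⟨V, hV, hx, hφ⟩ := Den.exists_chart f x
  have : Nonempty V := ⟨⟨x, hx⟩⟩
  let : Algebra K Γ(A, V) := (Den.str f V).toAlgebra
  have h1 : Algebra.IsStandardSmooth K Γ(A, V) := hφ
  have h2 : Algebra.Smooth K Γ(A, V) := inferInstance
  have hN : IsNoetherianRing Γ(A, V) := Algebra.FiniteType.isNoetherianRing K _
  obtain ⟨m, hm, hpm⟩ := Ideal.exists_le_maximal (hV.primeIdealOf ⟨x, hx⟩).asIdeal
    (hV.primeIdealOf ⟨x, hx⟩).isPrime.ne_top
  have hbij : Function.Bijective (algebraMap K (Γ(A, V) ⧸ m)) := by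
    let : Field (Γ(A, V) ⧸ m) := Ideal.Quotient.field m
    have : Module.Finite K (Γ(A, V) ⧸ m) := finite_of_finite_type_of_isJacobsonRing K (Γ(A, V) ⧸ m)
    exact IsAlgClosed.algebraMap_bijective_of_isIntegral
  have hF : IsFractionRing Γ(A, V) A.functionField :=
    functionField_isFractionRing_of_isAffineOpen A V hV
  obtain ⟨g, θ, hg, hθ, H⟩ := exists_spread (F := A.functionField) m
    (fun a b hb => exists_colon_generator m hbij a b hb) r
  refine ⟨A.basicOpen g, algebraMap Γ(A, V) A.functionField θ,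
    (Dict.mem_basicOpen_iff hV x hx g).2 (fun h => hg (hpm h)), ?_, ?_⟩
  · intro h0
    exact hθ ((IsFractionRing.injective Γ(A, V) A.functionField) (h0.trans (map_zero _).symm))
  · intro y hy
    have hyV : y ∈ V := A.basicOpen_le g hy
    have hgy := (Dict.mem_basicOpen_iff hV y hyV g).1 hy
    refine ⟨(Dict.isRegAt_iff_inLoc hV y hyV _).2 ⟨θ, 1, ?_, by rw [map_one, mul_one]⟩,
      fun z hz => ?_⟩
    · intro h
      exact (hV.primeIdealOf ⟨y, hyV⟩).isPrime.ne_top ((Ideal.eq_top_iff_one _).2 h)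
    · rw [Dict.isRegAt_iff_inLoc hV y hyV, Dict.isRegAt_iff_inLoc hV y hyV]
      exact H _ (hV.primeIdealOf ⟨y, hyV⟩).isPrime hgy z ((Dict.isRegAt_iff_inLoc hV y hyV z).1 hz)

end Fermat.Agent.S26.F
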