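/-
S26 / block F : CONTRACT of the block (existence of polar Cartier data).
-/
import Fermat.Agent.S26.B.Defs
import Fermat.Agent.S26.F.Den

set_option autoImplicit false

universe u

open CategoryTheory CategoryTheory.Limits AlgebraicGeometry NeronModelInfra GoodReductionJacobian

namespace Fermat.Agent.S26.F

/-- the trivial effective Cartier data -/
noncomputable def Main.ecdOne (T : Scheme.{u}) [IsIntegral T] : ECD T where
  θ := fun _ => 1
  ne := fun _ => one_ne_zero
  coh := fun _ => ⟨⊤, trivial, fun y _ => by
    rw [map_one, map_one, div_one]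
    exact IsUnitAt.one y⟩

/-- the product of effective Cartier data -/
noncomputable def Main.ecdMul {T : Scheme.{u}} [IsIntegral T] (D D' : ECD T) : ECD T where
  θ := fun x => D.θ x * D'.θ x
  ne := fun x => mul_ne_zero (D.ne x) (D'.ne x)
  coh := fun x => by
    obtain ⟨U, hxU, hU⟩ := D.coh x
    obtain ⟨U', hxU', hU'⟩ := D'.coh x
    refine ⟨U ⊓ U', ⟨hxU, hxU'⟩, fun y hy => ?_⟩
    rw [map_mul, map_mul, mul_div_mul_comm]
    exact (hU y hy.1).mul (hU' y hy.2)

/-- the polar data of one rational function -/
theorem Main.exists_ecd_single {K : Type u} [Field K] [IsAlgClosed K] {A : Scheme.{u}}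
    (f : A ⟶ SpK K) [IsIntegral A] [Smooth f] (r : A.functionField) :
    ∃ D : ECD A, ∀ x, IsRegAt x (r * toFF x (D.θ x)) := by
  choose U u hxU hu0 hU using exists_den f r
  have ht : ∀ x, ∃ t : A.presheaf.stalk x, toFF x t = u x := fun x => (hU x x (hxU x)).1
  choose t ht using ht
  have hself : ∀ x y (hy : y ∈ U x), IsRegAt y (u x * r) := fun x y hy =>
    ((hU x y hy).2 (u x) (hU x y hy).1).2 (by
      rw [div_self (hu0 x)]
      exact Dict.isRegAt_one y)
  refine ⟨{ θ := t
            ne := fun x h => hu0 x (by rw [← ht x, h, map_zero])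
            coh := fun x => ⟨U x, hxU x, fun y hy => ?_⟩ }, fun x => ?_⟩
  · rw [ht x, ht y]
    have h1 : IsRegAt y (u x / u y) :=
      ((hU y y (hxU y)).2 (u x) (hU x y hy).1).1 (hself x y hy)
    have h2 : IsRegAt y (u y / u x) :=
      ((hU x y hy).2 (u y) (hU y y (hxU y)).1).1 (hself y y (hxU y))
    refine Dict.isUnitAt_of_isRegAt h1 h2 ?_
    have := hu0 x
    have := hu0 y
    field_simp
  · show IsRegAt x (r * toFF x (t x))
    rw [ht x, mul_comm]
    exact hself x x (hxU x)

/-- the polar data of finitely many rational functions -/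
theorem Main.exists_ecd_finset {K : Type u} [Field K] [IsAlgClosed K] {A : Scheme.{u}}
    (f : A ⟶ SpK K) [IsIntegral A] [Smooth f] (s : Finset A.functionField) :
    ∃ D : ECD A, ∀ x, ∀ r ∈ s, IsRegAt x (r * toFF x (D.θ x)) := by
  classical
  induction s using Finset.induction_on with
  | empty => exact ⟨Main.ecdOne A, fun x r hr => absurd hr (Finset.notMem_empty r)⟩
  | insert a s _ ih =>
    obtain ⟨D, hD⟩ := ih
    obtain ⟨D', hD'⟩ := Main.exists_ecd_single f a
    refine ⟨Main.ecdMul D D', fun x r hr => ?_⟩
    show IsRegAt x (r * toFF x (D.θ x * D'.θ x))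
    rw [map_mul]
    rcases Finset.mem_insert.1 hr with rfl | hr
    · rw [mul_left_comm]
      exact Dict.isRegAt_mul ⟨_, rfl⟩ (hD' x)
    · rw [← mul_assoc]
      exact Dict.isRegAt_mul (hD x r hr) ⟨_, rfl⟩

/-- compatibility of the structure maps -/
theorem Main.constFF_eq {K : Type u} [Field K] {A : Scheme.{u}} (f : A ⟶ SpK K) [IsIntegral A]
    (V : A.Opens) [Nonempty V] (c : K) :
    constFF K f c = algebraMap Γ(A, V) A.functionField (Den.str f V c) := by
  have hgen : genericPoint A ∈ V :=
    ((genericPoint_spec A).mem_open_set_iff V.isOpen).mpr (by simpa using ‹Nonempty V›)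
  have h := A.presheaf.germ_res_apply (homOfLE (le_top : V ≤ f ⁻¹ᵁ ⊤)) (genericPoint A) hgen
    (f.app ⊤ ((Scheme.ΓSpecIso (CommRingCat.of K)).inv.hom c))
  exact h.symm

/-- finitely many generators of the function field -/
theorem Main.exists_gen {K : Type u} [Field K] {A : Scheme.{u}} (f : A ⟶ SpK K)
    [IsIntegral A] [Smooth f] :
    ∃ (N : ℕ) (r : Fin N → A.functionField), letI := ffAlgebra K f
      IntermediateField.adjoin K (Set.range r) = ⊤ := by
  obtain ⟨V, hV, hx, hφ⟩ := Den.exists_chart f (genericPoint A)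
  have : Nonempty V := ⟨⟨_, hx⟩⟩
  let : Algebra K Γ(A, V) := (Den.str f V).toAlgebra
  have h1 : Algebra.IsStandardSmooth K Γ(A, V) := hφ
  have hft : Algebra.FiniteType K Γ(A, V) := inferInstance
  have hF : IsFractionRing Γ(A, V) A.functionField :=
    functionField_isFractionRing_of_isAffineOpen A V hV
  obtain ⟨N, π, hπ⟩ := Algebra.FiniteType.iff_quotient_mvPolynomial''.1 hft
  refine ⟨N, fun j => algebraMap Γ(A, V) A.functionField (π (MvPolynomial.X j)), ?_⟩
  let := ffAlgebra K f
  have key : ∀ a : Γ(A, V), algebraMap Γ(A, V) A.functionField a ∈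
      IntermediateField.adjoin K
        (Set.range fun j => algebraMap Γ(A, V) A.functionField (π (MvPolynomial.X j))) := by
    intro a
    obtain ⟨P, rfl⟩ := hπ a
    induction P using MvPolynomial.induction_on with
    | C c =>
      have e : algebraMap Γ(A, V) A.functionField (π (MvPolynomial.C c)) =
          algebraMap K A.functionField c := by
        rw [← MvPolynomial.algebraMap_eq, AlgHom.commutes]
        exact (Main.constFF_eq f V c).symm
      rw [e]
      exact IntermediateField.algebraMap_mem _ c
    | add p q hp hq =>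
      rw [map_add, map_add]
      exact add_mem hp hq
    | mul_X p j hp =>
      rw [map_mul, map_mul]
      exact mul_mem hp (IntermediateField.subset_adjoin K _ ⟨j, rfl⟩)
  rw [eq_top_iff]
  intro z _
  obtain ⟨a, b, -, rfl⟩ := IsFractionRing.div_surjective (A := Γ(A, V)) z
  exact div_mem (key a) (key b)

/-- **Contract F.** (only uses: `A` integral, smooth, quasi-compact over the algebraically closed
field `K`). -/
theorem nonempty_polarData {K : Type u} [Field K] [IsAlgClosed K] {A : Scheme.{u}} (f : A ⟶ SpK K)
    [IsIntegral A] [Smooth f] [QuasiCompact f] :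
    Nonempty (PolarData K f) := by
  classical
  obtain ⟨N, r, hr⟩ := Main.exists_gen f
  obtain ⟨D, hD⟩ := Main.exists_ecd_finset f (Finset.univ.image r)
  exact ⟨{ D := D
           N := N
           r := r
           reg := fun x j => hD x (r j) (Finset.mem_image_of_mem r (Finset.mem_univ j))
           gen := hr }⟩

end Fermat.Agent.S26.F
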